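import Fermat.Agent.S55.G.Defs

/-!
# S55, layer G (helper953): Hilbert 90 for a finite group acting faithfully on a field

`hilbert90_ringAut` : Noether's form of Hilbert 90 for a finite group `D` acting on a field `E`
through an injective homomorphism `φ : D →* (E ≃+* E)` (no base field needed).
`isZero_H1_unitsRepr` : `H¹(D, Eˣ) = 0` for the representation `unitsRepr D φ` of `G/Defs.lean`.
-/

set_option autoImplicit false

namespace Fermat.Agent.S55.G.H953

open CategoryTheory groupCohomology

/-- Noether's form of Hilbert 90 for a finite group `D` acting faithfully on a field `E` by ring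
automorphisms. -/
theorem hilbert90_ringAut {D E : Type} [Group D] [Finite D] [Field E]
    (φ : D →* (E ≃+* E)) (hφ : Function.Injective φ) (f : D → Eˣ)
    (hf : ∀ g h : D, f (g * h) = Units.map ((φ g : E ≃+* E) : E →* E) (f h) * f g) :
    ∃ β : Eˣ, ∀ g : D, Units.map ((φ g : E ≃+* E) : E →* E) β / β = f g := by
  classical
  have : Fintype D := Fintype.ofFinite D
  -- Dedekind independence of the characters `φ d : E → E`
  have hli : LinearIndependent E (fun d : D => ((φ d : E ≃+* E) : E → E)) :=
    LinearIndependent.comp (ι' := D) (linearIndependent_monoidHom E E)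
      (fun d => ((φ d : E ≃+* E) : E →* E))
      (fun x y h => hφ (by
        ext z
        exact DFunLike.congr_fun h z))
  have hne : (∑ d : D, (f d : E) • ((φ d : E ≃+* E) : E → E)) ≠ 0 := by
    intro h0
    have := Fintype.linearIndependent_iff.1 hli (fun d => (f d : E)) h0 1
    exact Units.ne_zero (f 1) this
  obtain ⟨z, hz⟩ : ∃ z, (∑ d : D, (f d : E) • ((φ d : E ≃+* E) : E → E)) z ≠ 0 :=
    not_forall.1 (fun hall => hne (funext hall))
  have hz' : (∑ d : D, (f d : E) * φ d z) ≠ 0 := by
    simpa [Finset.sum_apply] using hz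
  refine ⟨(Units.mk0 _ hz')⁻¹, fun g => ?_⟩
  rw [map_inv, div_inv_eq_mul, inv_mul_eq_iff_eq_mul]
  apply Units.ext
  simp only [Units.val_mul, Units.val_mk0, Units.coe_map, MonoidHom.coe_coe]
  rw [map_sum, Finset.sum_mul]
  have := Fintype.sum_bijective (fun i : D => g * i) (Group.mulLeft_bijective g)
    (fun i => (f (g * i) : E) * φ (g * i) z)
    (fun i => (f i : E) * φ i z) (fun i => rfl)
  rw [← this]
  refine Finset.sum_congr rfl fun i _ => ?_
  rw [hf g i, map_mul φ g i]
  simp only [Units.val_mul, Units.coe_map, MonoidHom.coe_coe, RingAut.mul_apply, map_mul]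
  ring

/-- `H¹(D, Eˣ) = 0` for a finite group `D` acting faithfully on a field `E`. -/
theorem isZero_H1_unitsRepr {D E : Type} [Group D] [Finite D] [Field E]
    (φ : D →* (E ≃+* E)) (hφ : Function.Injective φ) :
    Limits.IsZero (groupCohomology (Rep.of (unitsRepr D φ)) 1) := by
  rw [ModuleCat.isZero_iff_subsingleton]
  refine ⟨fun a b => ?_⟩
  suffices h : ∀ x : H1 (Rep.of (unitsRepr D φ)), x = 0 by
    rw [h a, h b]
  intro x
  induction x using H1_induction_on with
  | h c =>
    rw [H1π_eq_zero_iff]
    have hc := (mem_cocycles₁_iff (c : D → _)).1 c.2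
    obtain ⟨β, hβ⟩ := hilbert90_ringAut φ hφ (fun h => Additive.toMul (c h)) (fun g h => by
      have := hc g h
      exact congrArg Additive.toMul this)
    refine ⟨Additive.ofMul β, funext fun g => ?_⟩
    have := hβ g
    exact congrArg Additive.ofMul this

end Fermat.Agent.S55.G.H953
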