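import Fermat.Agent.S55.G.Spec
import Fermat.Agent.S55.G.PL0H713
import Fermat.Agent.S55.G.H953.Hilbert90

/-!
# S55, layer G, leaf G-H1J (helper953): `H¹(G, J_S(L)) = 0`

* `locAut_injective` : the decomposition group of a place acts faithfully on the local field.
* `isZero_H1_locRep` : Hilbert 90 for `L_𝔪ˣ` as a module over the decomposition group.
* `exists_orbitReps` : a finite set of representatives of the `G`-orbits of places above `S`.
* `h1J_of : ShapiroJSpec → H1JSpec`.
-/

set_option autoImplicit false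
set_option linter.style.haveILetI false

open scoped NumberField TensorProduct
open IsDedekindDomain CategoryTheory groupCohomology

noncomputable section

namespace Fermat.Agent.S55.G.H953

open Fermat.Agent.S55.G

variable (S : Finset Nat.Primes) (G L : Type) [Group G] [Field L] [NumberField L]
  [MulSemiringAction G L]

variable {L} in
/-- `L → L_𝔪` is injective. -/
lemma toLoc_injective (𝔪 : SPlace S L) : Function.Injective (toLoc S 𝔪) :=
  (toLoc S 𝔪).injective

variable {L} in
/-- The decomposition group acts faithfully on the local field. -/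
lemma locAut_injective [FaithfulSMul G L] (𝔪 : SPlace S L) :
    Function.Injective (locAut S G 𝔪) := by
  intro g h hgh
  apply Subtype.ext
  apply FaithfulSMul.eq_of_smul_eq_smul (α := L)
  intro x
  apply toLoc_injective S 𝔪
  rw [← locAut_toLoc, ← locAut_toLoc, hgh]

variable {L} in
/-- Hilbert 90 at a place: `H¹(D_𝔪, L_𝔪ˣ) = 0`. -/
theorem isZero_H1_locRep [Finite G] [FaithfulSMul G L] (𝔪 : SPlace S L) :
    Limits.IsZero (groupCohomology (LocRep S G 𝔪) 1) :=
  isZero_H1_unitsRepr (locAut S G 𝔪) (locAut_injective S G 𝔪)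

/-- A finite set of representatives of the `G`-orbits of the places above `S`. -/
theorem exists_orbitReps [Finite (SPlace S L)] :
    ∃ R : Finset (SPlace S L),
      ∀ 𝔪 : SPlace S L, ∃! r : SPlace S L, r ∈ R ∧ ∃ g : G, sPlaceSMul S G g r = 𝔪 := by
  classical
  letI : MulAction G (SPlace S L) := sPlaceAction S G L
  have : Fintype (SPlace S L) := Fintype.ofFinite _
  have : Fintype (MulAction.orbitRel.Quotient G (SPlace S L)) := Fintype.ofFinite _
  refine ⟨Finset.univ.image
    (fun o : MulAction.orbitRel.Quotient G (SPlace S L) => o.out), fun 𝔪 => ?_⟩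
  have hout : ∀ 𝔫 : SPlace S L,
      (Quotient.mk'' 𝔫 : MulAction.orbitRel.Quotient G (SPlace S L)).out ∈
        MulAction.orbit G 𝔫 := fun 𝔫 =>
    (MulAction.orbitRel_apply).1 (Quotient.exact' (Quotient.out_eq' (Quotient.mk'' 𝔫)))
  refine ⟨(Quotient.mk'' 𝔪 : MulAction.orbitRel.Quotient G (SPlace S L)).out,
    ⟨Finset.mem_image.2 ⟨_, Finset.mem_univ _, rfl⟩, ?_⟩, ?_⟩
  · obtain ⟨g, hg⟩ := hout 𝔪
    refine ⟨g⁻¹, ?_⟩
    have h1 : g • 𝔪 = (Quotient.mk'' 𝔪 : MulAction.orbitRel.Quotient G (SPlace S L)).out := hg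
    have h2 : g⁻¹ • (g • 𝔪) = 𝔪 := inv_smul_smul g 𝔪
    rw [h1] at h2
    exact h2
  · rintro r ⟨hr, g, hg⟩
    obtain ⟨o, -, rfl⟩ := Finset.mem_image.1 hr
    have h1 : (Quotient.mk'' o.out : MulAction.orbitRel.Quotient G (SPlace S L)) =
        Quotient.mk'' 𝔪 := by
      apply Quotient.sound'
      refine (MulAction.orbitRel_apply).2 ?_
      refine ⟨g⁻¹, ?_⟩
      have h2 : g • o.out = 𝔪 := hg
      show g⁻¹ • 𝔪 = o.out
      rw [← h2, inv_smul_smul]
    rw [Quotient.out_eq'] at h1
    rw [h1]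

/-- **G-H1J** from **G-LOC**: `H¹(G, J_S(L)) = 0`. -/
theorem h1J_of (hLoc : ShapiroJSpec) : H1JSpec := by
  intro S G L _ _ _ _ _ _
  haveI : Finite (SPlace S L) := (PL0H713.locField S L).1
  obtain ⟨R, hR⟩ := exists_orbitReps S G L
  have hbij := hLoc S G L R hR 1
  rw [ModuleCat.isZero_iff_subsingleton]
  refine ⟨fun a b => hbij.1 ?_⟩
  funext r
  haveI : Subsingleton (groupCohomology (LocRep S G r.1) 1) :=
    ModuleCat.isZero_iff_subsingleton.1 (isZero_H1_locRep S G r.1)
  exact Subsingleton.elim _ _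

end Fermat.Agent.S55.G.H953
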