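import Fermat.Agent.S55.G.Spec1b

/-!
# S55, layer G, leaf G-CYCp (helper953): cyclic layers of degree `p^k`

`cyclicPow_of : PClassUpperSpec → FirstInequalityCycSpec → CyclicPowSpec`:
for a cyclic `p`-group `G` (p odd, `p ∈ S`, unramified outside `S`, `μ_p ⊂ L^G`):
`H¹(G, C_S(L)) = 0` (upper-bound spec at `H = ⊤`) and `|H²(G, C_S(L))| = |G|`
(first inequality for cyclic groups of odd order).
-/

set_option autoImplicit false
set_option linter.style.haveILetI false

open scoped NumberField TensorProduct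
open IsDedekindDomain CategoryTheory groupCohomology

noncomputable section

namespace Fermat.Agent.S55.G.H953

open Fermat.Agent.S55.G

/-- `Hⁿ(⊤, A|⊤) ≅ Hⁿ(G, A)`. -/
def topIso953 {k G : Type} [CommRing k] [Group G] (A : Rep.{0} k G) (n : ℕ) :
    groupCohomology (T.resSub A (⊤ : Subgroup G)) n ≅ groupCohomology A n :=
  groupCohomology.mapIso (A := A) (B := T.resSub A (⊤ : Subgroup G))
    (Subgroup.topEquiv : (⊤ : Subgroup G) ≃* G) (LinearEquiv.refl k A.V)
    (fun g => by
      show (LinearEquiv.refl k A.V : A.V →ₗ[k] A.V) ∘ₗ (T.resSub A ⊤).ρ g =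
        A.ρ (Subgroup.topEquiv g) ∘ₗ (LinearEquiv.refl k A.V : A.V →ₗ[k] A.V)
      ext x; rfl) n

/-- A finite `p`-group with `p` odd has odd order. -/
lemma odd_card_of_isPGroup {p : ℕ} [hp : Fact p.Prime] (hp2 : p ≠ 2) {G : Type} [Group G]
    [Finite G] (hG : IsPGroup p G) : Odd (Nat.card G) := by
  obtain ⟨k, hk⟩ := hG.exists_card_eq
  rw [hk]
  exact (hp.out.odd_of_ne_two hp2).pow

/-- **G-CYCp** from **G-UP** and **G-FIc**. -/
theorem cyclicPow_of (hUP : PClassUpperSpec) (hFI : FirstInequalityCycSpec) : CyclicPowSpec := by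
  intro p hp hp2 S G L _ _ _ _ _ _ _ hpS hG hunr hζ
  have h1top := (hUP p hp2 S G L hpS hG hunr hζ ⊤).1
  have h1 : Limits.IsZero (groupCohomology (CRep S G L) 1) :=
    Limits.IsZero.of_iso h1top (topIso953 (CRep S G L) 1).symm
  obtain ⟨-, -, hcard⟩ := hFI (Nat.card G) (odd_card_of_isPGroup hp2 hG) S G L ⟨_, hpS⟩ rfl
  refine ⟨h1, ?_⟩
  haveI : Subsingleton (groupCohomology (CRep S G L) 1) :=
    ModuleCat.isZero_iff_subsingleton.1 h1
  have hc1 : Nat.card (groupCohomology (CRep S G L) 1) = 1 :=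
    Nat.card_of_subsingleton (0 : groupCohomology (CRep S G L) 1)
  rw [hcard, hc1, mul_one]

end Fermat.Agent.S55.G.H953
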